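import Fermat.Agent.A2.Alg.H34.AlgSS

/-!
# WALL A2 / ALG — strong form without `SepCoord` (route S, helper34)

Route S uses neither the separating coordinate `SepCoord`, nor `τ x = x`, nor the finite order of
`τ`.  This file states ALG without these hypotheses, universe-polymorphically:

* `algSS_strong` : `AlgSSConclusion E m τ` from `ChartCtx`-data, two `SSChart`s and `τ ≡ id mod w`
  on both charts;
* `algSS_sepFree` : the same in the EXACT shape of the hypothesis `hALG` of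
  `T1.H849.kummerTarget_of_parts_of` with `SS := fun w B => Nonempty (SSChart w B)`,
  `Sep := fun _ _ => True` (`T1.H849.DivDiv` is `DivisibleDiv` unfolded).
-/

set_option autoImplicit false
set_option linter.unusedVariables false

namespace Fermat.Agent.A2.Alg.H34

open Fermat.Agent.A2 Fermat.Agent.A2.Alg

section Strong

variable {R E F : Type*} [CommRing R] [IsDomain R] [IsDiscreteValuationRing R]
  [HenselianLocalRing R] [IsAlgClosed (IsLocalRing.ResidueField R)]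
  [Field E] [CharZero E] [Algebra R E] [IsFractionRing R E]
  [Field F] [Algebra E F] [Algebra R F] [IsScalarTower R E F]

/-- Purity at every closed point of the special fibre (no `SepCoord`). -/
theorem purity_all (q m : ℕ) (hq : q.Prime) (hqR : (q : R) ∈ IsLocalRing.maximalIdeal R)
    (hm : 0 < m) (hqm : ¬ q ∣ m)
    (w : R) (x : F) (B : Subalgebra R F) (hB : ChartCtx E w x B)
    (c : SSChart w B)
    (u : F) (hu : u ≠ 0) (hdiv : DivisibleDiv E m u) (hs : IsSplit B c u)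
    (n : Ideal B) (hn : n.IsMaximal) (hwn : algebraMap R B w ∈ n) : PureAt B c m u n := by
  by_cases h1 : c.p₁ ≤ n ∧ c.p₂ ≤ n
  · exact Fermat.Agent.A2.Alg.H609.purity_node m hm w x B hB c u hdiv hs n hn.isPrime h1.1 h1.2
  · exact Fermat.Agent.A2.Alg.H754.purity_smooth q m hq hqR hm hqm w x B hB c
      (incomparable_of_ssChart c) u hu hdiv hs n hn hwn h1

/-- **Step II** (no `SepCoord`).  A split Kummer class is fixed by `τ`. -/
theorem stepII_strong (q m : ℕ) (hq : q.Prime) (hqR : (q : R) ∈ IsLocalRing.maximalIdeal R)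
    (hm : 0 < m) (hqm : ¬ q ∣ m)
    (w : R) (x : F) (Bf Bi : Subalgebra R F)
    (hBf : ChartCtx E w x Bf) (hBi : ChartCtx E w x⁻¹ Bi)
    (cf : SSChart w Bf) (ci : SSChart w Bi)
    (τ : F ≃+* F) (τE : E ≃+* E) (τR : R ≃+* R)
    (hτf : TauCtx w Bf τ τE τR) (hτi : TauCtx w Bi τ τE τR)
    (u : F) (hu : u ≠ 0) (hdiv : DivisibleDiv E m u)
    (hsf : IsSplit Bf cf u) (hsi : IsSplit Bi ci u) :
    ∃ h : F, h ≠ 0 ∧ τ u = h ^ m * u := by
  have hτu : τ u ≠ 0 := (map_ne_zero τ).2 hu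
  have hu' : τ u * u⁻¹ ≠ 0 := mul_ne_zero hτu (inv_ne_zero hu)
  have hdiv' : DivisibleDiv E m (τ u * u⁻¹) :=
    divisibleDiv_mul_inv m _ _ (divisibleDiv_tau τ τE hτf.hτE m u hdiv) hdiv
  have hf : LocallyFactored Bf cf m (τ u * u⁻¹) := fun n hn hwn =>
    localFactor_of_pureAt w Bf cf τ τE τR hτf m u hu n hn.isPrime hwn
      (purity_all q m hq hqR hm hqm w x Bf hBf cf u hu hdiv hsf n hn hwn)
  have hi : LocallyFactored Bi ci m (τ u * u⁻¹) := fun n hn hwn =>
    localFactor_of_pureAt w Bi ci τ τE τR hτi m u hu n hn.isPrime hwn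
      (purity_all q m hq hqR hm hqm w x⁻¹ Bi hBi ci u hu hdiv hsi n hn hwn)
  obtain ⟨y, hy, hyu⟩ := glue (E := E) q m hq hqR hm hqm w x Bf Bi hBf hBi cf ci
    (incomparable_of_ssChart cf) (incomparable_of_ssChart ci) _ hu' hdiv' hf hi
  refine ⟨y, hy, ?_⟩
  rw [← hyu, mul_assoc, inv_mul_cancel₀ hu, mul_one]

/-- **ALG, strong form** (route S): no `SepCoord`, no `τ x = x`, no finite order of `τ`;
universe-polymorphic. -/
theorem algSS_strong (w : R) (hw : Irreducible w) (q m : ℕ) (hq : q.Prime)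
    (hqR : (q : R) ∈ IsLocalRing.maximalIdeal R) (hm : 0 < m) (hqm : ¬ q ∣ m)
    (x : F) (hx : Transcendental E x)
    (hfin : FiniteDimensional (IntermediateField.adjoin E ({x} : Set F)) F)
    (hconst : ∀ f : F, IsAlgebraic E f → f ∈ (algebraMap E F).range)
    (Bf Bi : Subalgebra R F)
    (hBf : ∀ f : F, f ∈ Bf ↔ IsIntegral (Algebra.adjoin R ({x} : Set F)) f)
    (hBi : ∀ f : F, f ∈ Bi ↔ IsIntegral (Algebra.adjoin R ({x⁻¹} : Set F)) f)
    (cf : SSChart w Bf) (ci : SSChart w Bi)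
    (τ : F ≃+* F) (τE : E ≃+* E) (τR : R ≃+* R)
    (hτE : ∀ e : E, τ (algebraMap E F e) = algebraMap E F (τE e))
    (hτR : ∀ r : R, τE (algebraMap R E r) = algebraMap R E (τR r))
    (hτf : ∀ b ∈ Bf, ∃ c ∈ Bf, τ b - b = algebraMap R F w * c)
    (hτi : ∀ b ∈ Bi, ∃ c ∈ Bi, τ b - b = algebraMap R F w * c) :
    AlgSSConclusion E m τ := by
  have hCf : ChartCtx E w x Bf := ⟨hw, hx, hfin, hconst, hBf⟩
  have hCi : ChartCtx E w x⁻¹ Bi := chartCtx_inv w hw x hx hfin hconst Bi hBi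
  have hTf : TauCtx w Bf τ τE τR := ⟨hτE, hτR, hτf⟩
  have hTi : TauCtx w Bi τ τE τR := ⟨hτE, hτR, hτi⟩
  intro f hf hdiv
  have hτf0 : τ f ≠ 0 := (map_ne_zero τ).2 hf
  have hu : τ f * f⁻¹ ≠ 0 := mul_ne_zero hτf0 (inv_ne_zero hf)
  have hdivu : DivisibleDiv E m (τ f * f⁻¹) :=
    divisibleDiv_mul_inv m _ _ (divisibleDiv_tau τ τE hτE m f hdiv) hdiv
  obtain ⟨h, hh, hh2⟩ := stepII_strong q m hq hqR hm hqm w x Bf Bi hCf hCi cf ci
    τ τE τR hTf hTi (τ f * f⁻¹) hu hdivu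
    (stepI w x Bf hCf cf (incomparable_of_ssChart cf) τ τE τR hTf f hf)
    (stepI w x⁻¹ Bi hCi ci (incomparable_of_ssChart ci) τ τE τR hTi f hf)
  refine ⟨h, hh, ?_⟩
  rw [map_mul, map_inv₀] at hh2
  have h3 : τ (τ f) = h ^ m * (τ f * f⁻¹) * τ f := by
    rw [← hh2, mul_assoc, inv_mul_cancel₀ hτf0, mul_one]
  rw [h3]
  field_simp

end Strong

/-- **ALG, `SepCoord`-free**, in the exact shape of the hypothesis `hALG` of
`T1.H849.kummerTarget_of_parts_of N q m SS Sep` for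
`SS := fun R F _ _ _ w B => Nonempty (SSChart w B)` and `Sep := fun _ _ _ _ _ _ _ _ _ _ _ => True`. -/
theorem algSS_sepFree (q m : ℕ) (hq : q.Prime) (hm : 0 < m) (hqm : ¬ q ∣ m) :
    ∀ (R E F : Type) [CommRing R] [IsDomain R] [IsDiscreteValuationRing R]
      [HenselianLocalRing R] [IsAlgClosed (IsLocalRing.ResidueField R)]
      [Field E] [CharZero E] [Algebra R E] [IsFractionRing R E]
      [Field F] [Algebra E F] [Algebra R F] [IsScalarTower R E F]
      (w : R) (_ : Irreducible w) (_ : (q : R) ∈ IsLocalRing.maximalIdeal R)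
      (x : F) (_ : Transcendental E x)
      (_ : FiniteDimensional (IntermediateField.adjoin E ({x} : Set F)) F)
      (_ : ∀ f : F, IsAlgebraic E f → f ∈ (algebraMap E F).range)
      (Bf Bi : Subalgebra R F)
      (_ : ∀ f : F, f ∈ Bf ↔ IsIntegral (Algebra.adjoin R ({x} : Set F)) f)
      (_ : ∀ f : F, f ∈ Bi ↔ IsIntegral (Algebra.adjoin R ({x⁻¹} : Set F)) f)
      (_ : Nonempty (SSChart w Bf)) (_ : Nonempty (SSChart w Bi))
      (_ : True) (_ : True)
      (τ : F ≃+* F) (τE : E ≃+* E) (τR : R ≃+* R)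
      (_ : ∀ e : E, τ (algebraMap E F e) = algebraMap E F (τE e))
      (_ : ∀ r : R, τE (algebraMap R E r) = algebraMap R E (τR r))
      (_ : τ x = x)
      (_ : ∀ b ∈ Bf, ∃ c ∈ Bf, τ b - b = algebraMap R F w * c)
      (_ : ∀ b ∈ Bi, ∃ c ∈ Bi, τ b - b = algebraMap R F w * c),
      ∀ f : F, f ≠ 0 → DivisibleDiv E m f → ∃ h : F, h ≠ 0 ∧ τ (τ f) * f = h ^ m * (τ f) ^ 2 := by
  intro R E F _ _ _ _ _ _ _ _ _ _ _ _ _ w hw hqR x hx hfin hconst Bf Bi hBf hBi hcf hci _ _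
    τ τE τR hτE hτR _ hτf hτi
  obtain ⟨cf⟩ := hcf
  obtain ⟨ci⟩ := hci
  exact algSS_strong (E := E) w hw q m hq hqR hm hqm x hx hfin hconst Bf Bi hBf hBi cf ci
    τ τE τR hτE hτR hτf hτi

end Fermat.Agent.A2.Alg.H34
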