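import Fermat.Agent.A2.Alg.H34.Glue
import Fermat.Agent.A2.Alg.H609.PurityNode
import Fermat.Agent.A2.Alg.H754.PuritySmoothLeaf

/-!
# WALL A2 / ALG — CLOSED (route S, architect helper34)

`algSS : Fermat.Agent.A2.AlgSSStatement` (the frozen interface of `Fermat/Agent/A2/Spec.lean` v2),
from

* Step I + assembly          : `Alg/H34/{Basic,Val,Base,StepI,Asm}.lean` (helper34),
* leaf GLUE                  : `Alg/H34/Glue.lean` (helper34; on top of `Alg/H729/Glue.lean`,
                               helper729, and `A2/H552/HConst.lean`, helper552),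
* leaf P-N `purity_node`     : `Alg/H609/PurityNode.lean` (helper609),
* leaf P-S `purity_smooth`   : `Alg/H754/PuritySmoothLeaf.lean` (helper754).
-/

set_option autoImplicit false

namespace Fermat.Agent.A2.Alg.H34

/-- **ALG**: the abstract semistable theorem of the wall A2. -/
theorem algSS : Fermat.Agent.A2.AlgSSStatement :=
  algSS_of_purity Fermat.Agent.A2.Alg.H754.puritySmoothLeaf
    Fermat.Agent.A2.Alg.H609.purityNodeLeaf

end Fermat.Agent.A2.Alg.H34
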