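import Fermat.Agent.A2.Alg.H34.Asm
import Fermat.Agent.A2.Alg.H729.Glue
import Fermat.Agent.A2.H552.HConst

/-!
# WALL A2 / ALG — leaf GLUE (helper34): `glue` VERBATIM

`glue` = `H729.glue_of_hconst` (helper729) + `H552.hconst_of_henselian` (helper552) applied to the
valuation subring `compVal = B_{p₁}` of `F` (a discrete valuation ring with uniformiser `w`,
constructed elementwise from `exists_decomp`).
-/

set_option autoImplicit false
set_option linter.unusedSectionVars false
set_option linter.style.haveILetI false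
set_option linter.unusedVariables false

namespace Fermat.Agent.A2.Alg.H34

open Fermat.Agent.A2 Fermat.Agent.A2.Alg
open Polynomial

section Val

variable {R F : Type*} [CommRing R] [Field F] [Algebra R F]

/-- The valuation subring `B_p` of `F` (`p` a component of the special fibre). -/
def compVal (w : R) (B : Subalgebra R F) [IsNoetherianRing B] [IsFractionRing B F]
    (p q : Ideal B) (hp : p.IsPrime) (hpq : p ⊓ q = Ideal.span {algebraMap R B w})
    (hqp : ¬ q ≤ p) (hw0 : algebraMap R F w ≠ 0) : ValuationSubring F where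
  carrier := {f | ∃ a b : B, b ∉ p ∧ f * (b : F) = (a : F)}
  mul_mem' := by
    rintro f g ⟨a, b, hb, hab⟩ ⟨a', b', hb', hab'⟩
    refine ⟨a * a', b * b', fun h => ?_, ?_⟩
    · rcases hp.mem_or_mem h with h | h
      · exact hb h
      · exact hb' h
    · push_cast
      rw [← hab, ← hab']
      ring
  one_mem' := ⟨1, 1, fun h => hp.ne_top ((Ideal.eq_top_iff_one p).2 h), by simp⟩
  add_mem' := by
    rintro f g ⟨a, b, hb, hab⟩ ⟨a', b', hb', hab'⟩
    refine ⟨a * b' + a' * b, b * b', fun h => ?_, ?_⟩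
    · rcases hp.mem_or_mem h with h | h
      · exact hb h
      · exact hb' h
    · push_cast
      rw [← hab, ← hab']
      ring
  zero_mem' := ⟨0, 1, fun h => hp.ne_top ((Ideal.eq_top_iff_one p).2 h), by simp⟩
  neg_mem' := by
    rintro f ⟨a, b, hb, hab⟩
    refine ⟨-a, b, hb, ?_⟩
    push_cast
    rw [← hab]
    ring
  mem_or_inv_mem' := by
    intro f
    by_cases hf : f = 0
    · left
      subst hf
      exact ⟨0, 1, fun h => hp.ne_top ((Ideal.eq_top_iff_one p).2 h), by simp⟩
    · obtain ⟨k₁, k₂, A, D, hA, hD, h⟩ := exists_decomp w B p q hp hpq hqp f hf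
      rcases le_total k₂ k₁ with hk | hk
      · left
        obtain ⟨j, rfl⟩ := Nat.exists_eq_add_of_le hk
        refine ⟨algebraMap R B w ^ j * A, D, hD, ?_⟩
        have h1 : algebraMap R F w ^ k₂ * (f * (D : F)) =
            algebraMap R F w ^ k₂ * (algebraMap R F w ^ j * (A : F)) := by
          rw [pow_add] at h
          linear_combination h
        have h2 := mul_left_cancel₀ (pow_ne_zero k₂ hw0) h1
        rw [h2]
        push_cast
        rfl
      · right
        obtain ⟨j, rfl⟩ := Nat.exists_eq_add_of_le hk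
        refine ⟨algebraMap R B w ^ j * D, A, hA, ?_⟩
        have h1 : algebraMap R F w ^ k₁ * (f * (algebraMap R F w ^ j * (D : F))) =
            algebraMap R F w ^ k₁ * (A : F) := by
          rw [pow_add] at h
          linear_combination h
        have h2 := mul_left_cancel₀ (pow_ne_zero k₁ hw0) h1
        have h3 : f⁻¹ * (A : F) = algebraMap R F w ^ j * (D : F) := by
          rw [← h2]
          field_simp
        rw [h3]
        push_cast
        rfl

variable (w : R) (B : Subalgebra R F) [IsNoetherianRing B] [IsFractionRing B F]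
  (p q : Ideal B) (hp : p.IsPrime) (hpq : p ⊓ q = Ideal.span {algebraMap R B w})
  (hqp : ¬ q ≤ p) (hw0 : algebraMap R F w ≠ 0)

theorem mem_compVal {f : F} :
    f ∈ compVal w B p q hp hpq hqp hw0 ↔ ∃ a b : B, b ∉ p ∧ f * (b : F) = (a : F) := Iff.rfl

include hpq in
theorem w_mem_p : algebraMap R B w ∈ p := by
  have : algebraMap R B w ∈ p ⊓ q := by
    rw [hpq]
    exact Ideal.mem_span_singleton_self _
  exact this.1

theorem algebraMap_mem_compVal (r : R) : algebraMap R F r ∈ compVal w B p q hp hpq hqp hw0 :=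
  ⟨algebraMap R B r, 1, fun h => hp.ne_top ((Ideal.eq_top_iff_one p).2 h), by simp⟩

theorem inv_w_notMem_compVal : (algebraMap R F w)⁻¹ ∉ compVal w B p q hp hpq hqp hw0 := by
  rintro ⟨a, b, hb, hab⟩
  apply hb
  have h1 : (b : F) = algebraMap R F w * (a : F) := by
    rw [← hab]
    field_simp
  have h2 : b = algebraMap R B w * a := Subtype.ext (by rw [h1]; rfl)
  rw [h2]
  exact p.mul_mem_right _ (w_mem_p w B p q hpq)

theorem exists_pow_mul_mem_compVal (c : F) :
    ∃ k : ℕ, algebraMap R F w ^ k * c ∈ compVal w B p q hp hpq hqp hw0 := by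
  by_cases hc : c = 0
  · exact ⟨0, by rw [hc, mul_zero]; exact (compVal w B p q hp hpq hqp hw0).zero_mem⟩
  · obtain ⟨k₁, k₂, A, D, hA, hD, h⟩ := exists_decomp w B p q hp hpq hqp c hc
    refine ⟨k₂, algebraMap R B w ^ k₁ * A, D, hD, ?_⟩
    push_cast
    have : ((algebraMap R B w : B) : F) = algebraMap R F w := rfl
    linear_combination h

theorem mul_inv_w_mem_compVal {a : F} (ha : a ∈ compVal w B p q hp hpq hqp hw0)
    (ha' : a⁻¹ ∉ compVal w B p q hp hpq hqp hw0) :
    a * (algebraMap R F w)⁻¹ ∈ compVal w B p q hp hpq hqp hw0 := by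
  have ha0 : a ≠ 0 := by
    rintro rfl
    rw [inv_zero] at ha'
    exact ha' (compVal w B p q hp hpq hqp hw0).zero_mem
  obtain ⟨k₁, k₂, A, D, hA, hD, h⟩ := exists_decomp w B p q hp hpq hqp a ha0
  have hA0 : (A : F) ≠ 0 := fun h' => hA (by
    have : A = 0 := Subtype.ext h'
    rw [this]; exact p.zero_mem)
  have hD0 : (D : F) ≠ 0 := fun h' => hD (by
    have : D = 0 := Subtype.ext h'
    rw [this]; exact p.zero_mem)
  rcases Nat.lt_or_ge k₂ k₁ with hk | hk
  · obtain ⟨j, rfl⟩ := Nat.exists_eq_add_of_lt hk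
    refine ⟨algebraMap R B w ^ j * A, D, hD, ?_⟩
    push_cast
    have h1 : algebraMap R F w ^ (k₂ + 1) * (a * (algebraMap R F w)⁻¹ * (D : F)) =
        algebraMap R F w ^ (k₂ + 1) * (algebraMap R F w ^ j * (A : F)) := by
      have e : algebraMap R F w ^ (k₂ + j + 1) =
          algebraMap R F w ^ (k₂ + 1) * algebraMap R F w ^ j := by
        rw [← pow_add]; congr 1; omega
      rw [e] at h
      have e2 : algebraMap R F w ^ (k₂ + 1) * (a * (algebraMap R F w)⁻¹ * (D : F)) =
          (a * (algebraMap R F w ^ k₂ * (D : F))) * (algebraMap R F w * (algebraMap R F w)⁻¹) := by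
        rw [pow_succ]; ring
      rw [e2, h, mul_inv_cancel₀ hw0, mul_one, mul_assoc]
    exact mul_left_cancel₀ (pow_ne_zero _ hw0) h1
  · exfalso
    apply ha'
    obtain ⟨j, rfl⟩ := Nat.exists_eq_add_of_le hk
    refine ⟨algebraMap R B w ^ j * D, A, hA, ?_⟩
    push_cast
    have h1 : algebraMap R F w ^ k₁ * (a * (algebraMap R F w ^ j * (D : F))) =
        algebraMap R F w ^ k₁ * (A : F) := by
      rw [pow_add] at h
      linear_combination h
    have h2 := mul_left_cancel₀ (pow_ne_zero k₁ hw0) h1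
    rw [← h2]
    field_simp

/-- `u ≡ 1` on the component `p`  ⟹  `u = 1 + w t`, `t ∈ B_p`. -/
theorem exists_eq_one_add_of_oneAt {u : F} (hu : OneAt B p u) :
    ∃ t ∈ compVal w B p q hp hpq hqp hw0, u = 1 + algebraMap R F w * t := by
  obtain ⟨a, b, hb, hab, e⟩ := hu
  obtain ⟨s, hsq, hsp⟩ := SetLike.not_le_iff_exists.1 hqp
  have h1 : (a - b) * s ∈ p ⊓ q := ⟨p.mul_mem_right _ hab, q.mul_mem_left _ hsq⟩
  rw [hpq, Ideal.mem_span_singleton'] at h1
  obtain ⟨a', ha'⟩ := h1
  have hb0 : (b : F) ≠ 0 := fun h' => hb (by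
    have : b = 0 := Subtype.ext h'
    rw [this]; exact p.zero_mem)
  have hs0 : (s : F) ≠ 0 := fun h' => hsp (by
    have : s = 0 := Subtype.ext h'
    rw [this]; exact p.zero_mem)
  have e' : (a' : F) * algebraMap R F w = ((a : F) - (b : F)) * (s : F) := by
    have := congrArg (fun z : B => (z : F)) ha'
    simpa using this
  refine ⟨(a' : F) * ((s : F) * (b : F))⁻¹, ⟨a', s * b, fun h => ?_, ?_⟩, ?_⟩
  · rcases hp.mem_or_mem h with h | h
    · exact hsp h
    · exact hb h
  · push_cast
    field_simp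
  · have hu' : u = (a : F) * (b : F)⁻¹ := by
      field_simp
      exact e
    rw [hu']
    field_simp
    linear_combination -e'

end Val

section Main

variable {R E F : Type*} [CommRing R] [IsDomain R] [IsDiscreteValuationRing R]
  [HenselianLocalRing R] [IsAlgClosed (IsLocalRing.ResidueField R)]
  [Field E] [CharZero E] [Algebra R E] [IsFractionRing R E]
  [Field F] [Algebra E F] [Algebra R F] [IsScalarTower R E F]

/-- `u ≡ 1` on the first component, from the local factorisation at one closed point of it. -/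
theorem oneAt_of_locallyFactored (w : R) (B : Subalgebra R F) (c : SSChart w B) (m : ℕ) (u : F)
    (hf : LocallyFactored B c m u) : OneAt B c.p₁ u := by
  haveI := c.prime₁
  obtain ⟨n, hn, hpn⟩ := Ideal.exists_le_maximal c.p₁ c.prime₁.ne_top
  have hw₁ : algebraMap R B w ∈ c.p₁ := by
    have : algebraMap R B w ∈ c.p₁ ⊓ c.p₂ := by
      rw [c.inf_eq]
      exact Ideal.mem_span_singleton_self _
    exact this.1
  have hspan : Ideal.span {algebraMap R B w} ≤ c.p₁ := by
    rw [Ideal.span_le, Set.singleton_subset_iff]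
    exact hw₁
  obtain ⟨h, hh, h1, h2, -⟩ := hf n hn (hpn hw₁)
  have h3 : OneAt B c.p₁ (u * h ^ m) := H729.oneAt_of_locOne hpn hspan h1
  have h4 : OneAt B c.p₁ (h ^ m)⁻¹ := H729.oneAt_inv (H729.oneAt_pow c.prime₁ h2 m)
  have h5 := H729.oneAt_mul c.prime₁ h3 h4
  have h6 : u * h ^ m * (h ^ m)⁻¹ = u := by
    rw [mul_assoc, mul_inv_cancel₀ (pow_ne_zero m hh), mul_one]
  rwa [h6] at h5

/-- **GLUE.**  A Kummer class which is locally factored at every closed point of the special
fibre of both charts is trivial. -/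
theorem glue (q m : ℕ) (hq : q.Prime) (hqR : (q : R) ∈ IsLocalRing.maximalIdeal R)
    (hm : 0 < m) (hqm : ¬ q ∣ m)
    (w : R) (x : F) (Bf Bi : Subalgebra R F)
    (hBf : ChartCtx E w x Bf) (hBi : ChartCtx E w x⁻¹ Bi)
    (cf : SSChart w Bf) (ci : SSChart w Bi) (hcf : Incomparable cf) (hci : Incomparable ci)
    (u : F) (hu : u ≠ 0) (hdiv : DivisibleDiv E m u)
    (hf : LocallyFactored Bf cf m u) (hi : LocallyFactored Bi ci m u) :
    ∃ y : F, y ≠ 0 ∧ u = y ^ m := by
  refine H729.glue_of_hconst q m hq hqR hm hqm w x Bf Bi hBf hBi cf ci hcf hci u hu hdiv hf hi ?_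
  obtain ⟨hN, -, hFr⟩ := chart_instances' w x Bf hBf
  haveI := hN
  haveI := hFr
  have hw0 : algebraMap R F w ≠ 0 := by
    intro h
    exact hBf.hw.ne_zero (algebraMap_RF_injective E (by rw [h, map_zero]))
  obtain ⟨t, ht, hut⟩ := exists_eq_one_add_of_oneAt w Bf cf.p₁ cf.p₂ cf.prime₁ cf.inf_eq hcf.2 hw0
    (oneAt_of_locallyFactored w Bf cf m u hf)
  have hmk : (m : IsLocalRing.ResidueField R) ≠ 0 := by
    obtain ⟨mi, hmi⟩ := H729.exists_inv_natCast (R := R) q m hq hqR hqm
    intro h0
    have h1 : IsLocalRing.residue R (m : R) = 0 := by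
      rw [map_natCast]
      exact h0
    have h2 : (m : R) ∈ IsLocalRing.maximalIdeal R := (IsLocalRing.residue_eq_zero_iff _).1 h1
    exact (IsLocalRing.mem_maximalIdeal _).1 h2 (IsUnit.of_mul_eq_one mi hmi)
  exact Fermat.Agent.A2.H552.hconst_of_henselian E w hBf.hw
    (compVal w Bf cf.p₁ cf.p₂ cf.prime₁ cf.inf_eq hcf.2 hw0)
    (algebraMap_mem_compVal w Bf cf.p₁ cf.p₂ cf.prime₁ cf.inf_eq hcf.2 hw0)
    (inv_w_notMem_compVal w Bf cf.p₁ cf.p₂ cf.prime₁ cf.inf_eq hcf.2 hw0)
    (fun a ha ha' => mul_inv_w_mem_compVal w Bf cf.p₁ cf.p₂ cf.prime₁ cf.inf_eq hcf.2 hw0 ha ha')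
    (exists_pow_mul_mem_compVal w Bf cf.p₁ cf.p₂ cf.prime₁ cf.inf_eq hcf.2 hw0)
    m hmk t ht u hut

end Main

/-- The leaf GLUE in the packaged form consumed by `algSS_of_leaves`. -/
theorem glueLeaf : GlueLeaf :=
  fun {R E F} _ _ _ _ _ _ _ _ _ _ _ _ _ q m hq hqR hm hqm w x Bf Bi hBf hBi cf ci hcf hci u hu
      hdiv hf hi =>
    glue (E := E) q m hq hqR hm hqm w x Bf Bi hBf hBi cf ci hcf hci u hu hdiv hf hi

/-- ALG (route S) reduced to the two purity leaves. -/
theorem algSS_of_purity (hS : PuritySmoothLeaf) (hN : PurityNodeLeaf) :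
    Fermat.Agent.A2.AlgSSStatement :=
  algSS_of_leaves hS hN glueLeaf

end Fermat.Agent.A2.Alg.H34
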